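/-
S48 (Deligne–Serre), block Grp (I7), file 1: the invariant `tau = (trace, det)` and two
"at most two elements per value of `tau`" principles for a subgroup `G ≤ GL₂(k)` without
non-scalar elements having a double eigenvalue:
* elements of `G` sharing an eigenvector (`card_le_two_mul_card_image_of_eigen`);
* elements of one coset of the scalars (`scalar_coset`).
-/
import Mathlib
import Fermat.Agent.S56lib.TW.IrrAlg
import Fermat.Agent.S56lib.TW.Regular
import Fermat.Agent.S56lib.TW.StableLine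

set_option autoImplicit false

namespace Fermat.Agent.S48lib.Grp

open Fermat.Agent.S56lib.TW
open scoped Matrix

variable {k : Type*} [Field k]

/-- the pair (trace, determinant). -/
def tau (g : GL (Fin 2) k) : k × k :=
  ((g : Matrix (Fin 2) (Fin 2) k).trace, (g : Matrix (Fin 2) (Fin 2) k).det)

/-- an eigenvalue is a root of the characteristic polynomial. -/
theorem eigen_root (A : Matrix (Fin 2) (Fin 2) k) (v : Fin 2 → k) (hv : v ≠ 0) (a : k)
    (h : A *ᵥ v = a • v) : a * a - A.trace * a + A.det = 0 := by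
  have hch := cayley_hamilton_two A
  have h1 : (A * A) *ᵥ v = (A.trace • A - A.det • (1 : Matrix (Fin 2) (Fin 2) k)) *ᵥ v := by
    rw [hch]
  rw [← Matrix.mulVec_mulVec, h, Matrix.mulVec_smul, h, Matrix.sub_mulVec,
    Matrix.smul_mulVec, h, Matrix.smul_mulVec, Matrix.one_mulVec, smul_smul, smul_smul,
    ← sub_smul] at h1
  have h2 : (a * a - (A.trace * a - A.det)) • v = 0 := by
    rw [sub_smul, h1, sub_self]
  rcases smul_eq_zero.mp h2 with h3 | h3
  · linear_combination h3
  · exact absurd h3 hv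

/-- the eigenvalue of an invertible matrix is non-zero. -/
theorem eigen_ne_zero (g : GL (Fin 2) k) (v : Fin 2 → k) (hv : v ≠ 0) (a : k)
    (h : g.1 *ᵥ v = a • v) : a ≠ 0 := by
  rintro rfl
  rw [zero_smul] at h
  exact mulVec_ne_zero g hv h

/-- the inverse acts on an eigenvector by the inverse eigenvalue. -/
theorem inv_mulVec_eigen (g : GL (Fin 2) k) (v : Fin 2 → k) (hv : v ≠ 0) (a : k)
    (h : g.1 *ᵥ v = a • v) : (g⁻¹).1 *ᵥ v = a⁻¹ • v := by
  have ha := eigen_ne_zero g v hv a h
  have h1 : (g⁻¹).1 *ᵥ (g.1 *ᵥ v) = v := by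
    rw [Matrix.mulVec_mulVec, ← Units.val_mul, inv_mul_cancel, Units.val_one, Matrix.one_mulVec]
  rw [h, Matrix.mulVec_smul] at h1
  calc (g⁻¹).1 *ᵥ v = a⁻¹ • (a • ((g⁻¹).1 *ᵥ v)) := by rw [smul_smul, inv_mul_cancel₀ ha, one_smul]
    _ = a⁻¹ • v := by rw [h1]

/-- `G` has no non-scalar element with a double eigenvalue. -/
def NoUnip (G : Subgroup (GL (Fin 2) k)) : Prop :=
  ∀ g ∈ G, ∀ α : k, g.1.trace = 2 * α → g.1.det = α * α →
    g.1 = α • (1 : Matrix (Fin 2) (Fin 2) k)

/-- a finite group of order prime to the characteristic has no non-scalar element with a double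
eigenvalue. -/
theorem noUnip_of_card (h2 : (2 : k) ≠ 0) (G : Subgroup (GL (Fin 2) k)) [Finite G]
    (hcard : ((Nat.card G : ℕ) : k) ≠ 0) : NoUnip G := by
  intro g hg α htr hdet
  refine eq_scalar_of_pow_eq_one h2 g.1 α htr hdet (Nat.card G) hcard ?_
  have h1 : (⟨g, hg⟩ : G) ^ Nat.card G = 1 := pow_card_eq_one'
  have h3 : g ^ Nat.card G = 1 := by
    have := congrArg Subtype.val h1
    rwa [Subgroup.coe_pow, Subgroup.coe_one] at this
  rw [← Units.val_pow_eq_pow_val, h3, Units.val_one]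

/-- in a group without unipotents, an element is determined by its eigenvalue on a fixed vector
and its determinant. -/
theorem eq_of_eigen_det {G : Subgroup (GL (Fin 2) k)} (hG : NoUnip G) (v : Fin 2 → k) (hv : v ≠ 0)
    {g g' : GL (Fin 2) k} (hg : g ∈ G) (hg' : g' ∈ G) (a : k) (h : g.1 *ᵥ v = a • v)
    (h' : g'.1 *ᵥ v = a • v) (hdet : g.1.det = g'.1.det) : g = g' := by
  have ha := eigen_ne_zero g v hv a h
  set x : GL (Fin 2) k := g⁻¹ * g' with hx
  have hxG : x ∈ G := G.mul_mem (G.inv_mem hg) hg'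
  have hxv : x.1 *ᵥ v = (1 : k) • v := by
    rw [hx, Units.val_mul, ← Matrix.mulVec_mulVec, h', Matrix.mulVec_smul,
      inv_mulVec_eigen g v hv a h, smul_smul, mul_inv_cancel₀ ha]
  have hxdet : x.1.det = 1 := by
    have h1 : g.1.det * x.1.det = g'.1.det := by
      rw [← Matrix.det_mul, ← Units.val_mul, hx, mul_inv_cancel_left]
    have h2 : g.1.det ≠ 0 := by
      have := (Matrix.isUnit_iff_isUnit_det g.1).mp g.isUnit
      exact this.ne_zero
    rw [← hdet] at h1
    exact mul_left_cancel₀ h2 (h1.trans (mul_one _).symm)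
  have hroot := eigen_root x.1 v hv 1 hxv
  have hxtr : x.1.trace = 2 * 1 := by rw [hxdet] at hroot; linear_combination -hroot
  have hx1 := hG x hxG 1 hxtr (by rw [hxdet, mul_one])
  rw [one_smul] at hx1
  have : x = 1 := Units.ext hx1
  rw [hx, inv_mul_eq_one] at this
  exact this

/-- **Borel principle**: among the elements of a group without unipotents which have a given
eigenvector, at most two have a given (trace, determinant). -/
theorem card_le_two_mul_card_image_of_eigen [DecidableEq k] {G : Subgroup (GL (Fin 2) k)}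
    (hG : NoUnip G) (v : Fin 2 → k) (hv : v ≠ 0) (S : Finset (GL (Fin 2) k))
    (hS : ∀ g ∈ S, g ∈ G ∧ ∃ a : k, g.1 *ᵥ v = a • v) :
    S.card ≤ 2 * (S.image tau).card := by
  classical
  refine Finset.card_le_mul_card_image S 2 fun b _ => ?_
  by_contra hcon
  push Not at hcon
  obtain ⟨g₁, g₂, g₃, h₁, h₂, h₃, h12, h13, h23⟩ := Finset.two_lt_card_iff.mp hcon
  simp only [Finset.mem_filter] at h₁ h₂ h₃
  obtain ⟨hG₁, a₁, hv₁⟩ := hS g₁ h₁.1
  obtain ⟨hG₂, a₂, hv₂⟩ := hS g₂ h₂.1
  obtain ⟨hG₃, a₃, hv₃⟩ := hS g₃ h₃.1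
  have r₁ := eigen_root g₁.1 v hv a₁ hv₁
  have r₂ := eigen_root g₂.1 v hv a₂ hv₂
  have r₃ := eigen_root g₃.1 v hv a₃ hv₃
  have q12 : tau g₁ = tau g₂ := h₁.2.trans h₂.2.symm
  have q13 : tau g₁ = tau g₃ := h₁.2.trans h₃.2.symm
  have t12 : g₁.1.trace = g₂.1.trace := congrArg Prod.fst q12
  have d12 : g₁.1.det = g₂.1.det := congrArg Prod.snd q12
  have t13 : g₁.1.trace = g₃.1.trace := congrArg Prod.fst q13
  have d13 : g₁.1.det = g₃.1.det := congrArg Prod.snd q13
  rw [← t12, ← d12] at r₂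
  rw [← t13, ← d13] at r₃
  by_cases e12 : a₁ = a₂
  · exact h12 (eq_of_eigen_det hG v hv hG₁ hG₂ a₁ hv₁ (e12 ▸ hv₂) d12)
  by_cases e13 : a₁ = a₃
  · exact h13 (eq_of_eigen_det hG v hv hG₁ hG₃ a₁ hv₁ (e13 ▸ hv₃) d13)
  have s12 : a₁ + a₂ = g₁.1.trace := by
    have : (a₁ - a₂) * (a₁ + a₂ - g₁.1.trace) = 0 := by linear_combination r₁ - r₂
    rcases mul_eq_zero.mp this with h | h
    · exact absurd (sub_eq_zero.mp h) e12
    · linear_combination h
  have s13 : a₁ + a₃ = g₁.1.trace := by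
    have : (a₁ - a₃) * (a₁ + a₃ - g₁.1.trace) = 0 := by linear_combination r₁ - r₃
    rcases mul_eq_zero.mp this with h | h
    · exact absurd (sub_eq_zero.mp h) e13
    · linear_combination h
  have e23 : a₂ = a₃ := by linear_combination s12 - s13
  exact h23 (eq_of_eigen_det hG v hv hG₂ hG₃ a₂ hv₂ (e23 ▸ hv₃) (d12.symm.trans d13))

/-- a scalar multiple `g * s` of `g` with the same determinant: `s = ± 1`. -/
theorem scalar_coset (g s : GL (Fin 2) k) (hs : IsScal s.1) (hdet : (g * s).1.det = g.1.det) :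
    s = 1 ∨ s.1 = (-1 : k) • (1 : Matrix (Fin 2) (Fin 2) k) := by
  have hsc := (isScal_iff_eq_scalar s.1).mp hs
  set c := s.1 0 0 with hc
  have hs' : s.1 = c • (1 : Matrix (Fin 2) (Fin 2) k) := by
    rw [hsc]
    ext i j
    fin_cases i <;> fin_cases j <;> simp [Matrix.scalar_apply]
  have hgdet : g.1.det ≠ 0 := ((Matrix.isUnit_iff_isUnit_det g.1).mp g.isUnit).ne_zero
  have h1 : c * c = 1 := by
    rw [Units.val_mul, Matrix.det_mul, hs', Matrix.det_smul, Matrix.det_one, Fintype.card_fin,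
      mul_one] at hdet
    have : g.1.det * (c ^ 2 - 1) = 0 := by linear_combination hdet
    rcases mul_eq_zero.mp this with h | h
    · exact absurd h hgdet
    · linear_combination h
  have h2 : (c - 1) * (c + 1) = 0 := by linear_combination h1
  rcases mul_eq_zero.mp h2 with h | h
  · left
    apply Units.ext
    rw [hs', sub_eq_zero.mp h, one_smul, Units.val_one]
  · right
    rw [hs', eq_neg_of_add_eq_zero_left h]

end Fermat.Agent.S48lib.Grp
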