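/-
S48 (Deligne–Serre), block Grp (I7), file 3 (Part B, abstract counting): a finite group `G` acting
on a finite set `X`, a normal subgroup `Z` acting trivially, every `g ∉ Z` having exactly two fixed
points, every point having a stabiliser strictly bigger than `Z`.  Then some orbit has at most two
points, or `|G| ≤ 60 |Z|`.  (The classical `Σ (1 - 1/eᵢ) = 2 - 2/n`.)
-/
import Mathlib
import Fermat.Agent.S56lib.TW.OrbitCount

set_option autoImplicit false
set_option linter.unusedSectionVars false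
set_option linter.style.haveILetI false

namespace Fermat.Agent.S48lib.Grp

open Fermat.Agent.S56lib.TW MulAction

section Numerics

theorem numerics_aux2 (n b₁ b₂ b₃ e₃ : ℕ) (h₁ : b₁ * 2 = n) (h₂ : b₂ * 3 = n)
    (h₃ : b₃ * e₃ = n) (hsum : b₁ + b₂ + b₃ = n + 2) : n ≤ 60 := by
  have he : e₃ ≤ 5 := by
    by_contra hcon
    have h6 : b₃ * 6 ≤ b₃ * e₃ := Nat.mul_le_mul le_rfl (by omega)
    omega
  interval_cases e₃ <;> omega

theorem numerics_aux1 (n b₁ b₂ b₃ e₂ e₃ : ℕ) (h₁ : b₁ * 2 = n) (h₂ : b₂ * e₂ = n)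
    (h₃ : b₃ * e₃ = n) (hb₂ : 3 ≤ b₂) (hb₃ : 3 ≤ b₃) (he₂ : 2 ≤ e₂)
    (he₃ : 2 ≤ e₃) (hsum : b₁ + b₂ + b₃ = n + 2) : n ≤ 60 := by
  by_cases h23 : e₂ ≤ 3
  · have : e₂ = 2 ∨ e₂ = 3 := by omega
    rcases this with rfl | rfl
    · omega
    · exact numerics_aux2 n b₁ b₂ b₃ e₃ h₁ h₂ h₃ hsum
  by_cases h33 : e₃ ≤ 3
  · have : e₃ = 2 ∨ e₃ = 3 := by omega
    rcases this with rfl | rfl
    · omega
    · exact numerics_aux2 n b₁ b₃ b₂ e₂ h₁ h₃ h₂ (by omega)
  · exfalso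
    have h4 : b₂ * 4 ≤ b₂ * e₂ := Nat.mul_le_mul le_rfl (by omega)
    have h5 : b₃ * 4 ≤ b₃ * e₃ := Nat.mul_le_mul le_rfl (by omega)
    omega

/-- the arithmetic of three orbits. -/
theorem three_orbits_numerics (n b₁ b₂ b₃ e₁ e₂ e₃ : ℕ) (h₁ : b₁ * e₁ = n) (h₂ : b₂ * e₂ = n)
    (h₃ : b₃ * e₃ = n) (hb₁ : 3 ≤ b₁) (hb₂ : 3 ≤ b₂) (hb₃ : 3 ≤ b₃) (he₁ : 2 ≤ e₁) (he₂ : 2 ≤ e₂)
    (he₃ : 2 ≤ e₃) (hsum : b₁ + b₂ + b₃ = n + 2) : n ≤ 60 := by
  by_cases c₁ : e₁ = 2
  · subst c₁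
    exact numerics_aux1 n b₁ b₂ b₃ e₂ e₃ h₁ h₂ h₃ hb₂ hb₃ he₂ he₃ hsum
  by_cases c₂ : e₂ = 2
  · subst c₂
    exact numerics_aux1 n b₂ b₁ b₃ e₁ e₃ h₂ h₁ h₃ hb₁ hb₃ he₁ he₃ (by omega)
  by_cases c₃ : e₃ = 2
  · subst c₃
    exact numerics_aux1 n b₃ b₁ b₂ e₁ e₂ h₃ h₁ h₂ hb₁ hb₂ he₁ he₂ (by omega)
  · exfalso
    have h4 : b₁ * 3 ≤ b₁ * e₁ := Nat.mul_le_mul le_rfl (by omega)
    have h5 : b₂ * 3 ≤ b₂ * e₂ := Nat.mul_le_mul le_rfl (by omega)
    have h6 : b₃ * 3 ≤ b₃ * e₃ := Nat.mul_le_mul le_rfl (by omega)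
    omega

end Numerics

section Orbits

variable {G X : Type*} [Group G] [MulAction G X] [Fintype G] [Fintype X] (Z : Subgroup G)

/-- **pole count**: some orbit has at most two points, or `|G| ≤ 60 |Z|`. -/
theorem small_orbit_or_small [Z.Normal] (hZc : ∀ g ∈ Z, ∀ x : X, g • x = x)
    (hfix : ∀ g : G, g ∉ Z → ∃ y z : X, y ≠ z ∧ fixedBy X g = {y, z})
    (hpole : ∀ x : X, Nat.card Z < stabCard G x) :
    (∃ x : X, (orbF G x).card ≤ 2) ∨ Fintype.card G ≤ 60 * Nat.card Z := by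
  classical
  by_contra hcon
  push Not at hcon
  obtain ⟨hbig, hN60⟩ := hcon
  have hbig' : ∀ x : X, 3 ≤ (orbF G x).card := fun x => hbig x
  set z := Nat.card Z with hz
  set N := Fintype.card G with hN
  have hzpos : 0 < z := Nat.card_pos
  obtain ⟨n, hn⟩ : z ∣ N := by
    rw [hN, ← Nat.card_eq_fintype_card]
    exact Subgroup.card_subgroup_dvd_card Z
  -- no parabolic elements
  have hpar : ∀ x : X, parabCard Z x = 0 := by
    intro x
    rw [parabCard, Nat.card_eq_zero]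
    left
    refine ⟨fun ⟨g, hg1, hg2⟩ => ?_⟩
    obtain ⟨y, w, hyw, hf⟩ := hfix g hg1
    rw [hf] at hg2
    have hy : y ∈ ({x} : Set X) := hg2 ▸ Set.mem_insert _ _
    have hw : w ∈ ({x} : Set X) := hg2 ▸ Set.mem_insert_of_mem _ rfl
    exact hyw (hy.trans hw.symm)
  have hfix' : ∀ g : G, g ∉ Z → (∃ y, fixedBy X g = {y}) ∨
      ∃ y z, y ≠ z ∧ fixedBy X g = {y, z} := fun g hg => Or.inr (hfix g hg)
  have htot : ∑ x : X, wt Z x + 2 * z = 2 * N := sum_wt Z hZc hfix'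
  -- orders of the stabilisers
  have hstab : ∀ x : X, ∃ e : ℕ, 2 ≤ e ∧ stabCard G x = z * e ∧ (orbF G x).card * e = n := by
    intro x
    obtain ⟨e, he⟩ := card_dvd_stabCard Z hZc x
    have hlt := hpole x
    rw [he] at hlt
    have he2 : 2 ≤ e := by
      by_contra hc
      have : e = 0 ∨ e = 1 := by omega
      rcases this with rfl | rfl
      · rw [mul_zero] at hlt; omega
      · rw [mul_one] at hlt; omega
    refine ⟨e, he2, he, ?_⟩
    have h1 := card_orbF_mul_stabCard (G := G) x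
    rw [he, ← hN, hn] at h1
    have h2 : z * ((orbF G x).card * e) = z * n := by rw [← h1]; ring
    exact Nat.eq_of_mul_eq_mul_left hzpos h2
  -- the contribution of one orbit
  have horb : ∀ x : X, ∑ y ∈ orbF G x, wt Z y + z * (orbF G x).card = z * n := by
    intro x
    obtain ⟨e, he2, he, hbe⟩ := hstab x
    rw [sum_orbF (wt Z) (wt_smul Z) x, wt, hpar x, add_zero, he, ← hbe]
    have : z * e - z + z = z * e := Nat.sub_add_cancel (Nat.le_mul_of_pos_right z (by omega))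
    calc (orbF G x).card * (z * e - z) + z * (orbF G x).card
        = (orbF G x).card * (z * e - z + z) := by ring
      _ = (orbF G x).card * (z * e) := by rw [this]
      _ = z * ((orbF G x).card * e) := by ring
  -- decomposition into orbits
  let Ω := MulAction.orbitRel.Quotient G X
  haveI : Fintype Ω := Fintype.ofFinite Ω
  let π : X → Ω := Quotient.mk''
  have hfib : ∀ ω : Ω, (Finset.univ.filter fun x : X => π x = ω) = orbF G ω.out := by
    intro ω
    ext x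
    rw [Finset.mem_filter, mem_orbF]
    simp only [Finset.mem_univ, true_and]
    rw [← MulAction.orbitRel_apply, ← Quotient.eq'', Quotient.out_eq']
  have hdecomp : ∑ x : X, wt Z x = ∑ ω : Ω, ∑ y ∈ orbF G ω.out, wt Z y := by
    rw [← Finset.sum_fiberwise Finset.univ π (wt Z)]
    exact Finset.sum_congr rfl fun ω _ => by rw [hfib ω]
  set β : Ω → ℕ := fun ω => (orbF G ω.out).card with hβ
  have hβ3 : ∀ ω, 3 ≤ β ω := fun ω => hbig' _
  have hβn : ∀ ω, 2 * β ω ≤ n := by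
    intro ω
    obtain ⟨e, he2, -, hbe⟩ := hstab ω.out
    calc 2 * β ω = β ω * 2 := by ring
      _ ≤ β ω * e := Nat.mul_le_mul le_rfl he2
      _ = n := hbe
  have hsumΩ : ∑ ω : Ω, (n - β ω) + 2 = 2 * n := by
    have h1 : ∑ ω : Ω, ∑ y ∈ orbF G ω.out, wt Z y = ∑ ω : Ω, z * (n - β ω) := by
      refine Finset.sum_congr rfl fun ω _ => ?_
      have h3 : ∑ y ∈ orbF G ω.out, wt Z y + z * β ω = z * n := horb ω.out
      rw [Nat.mul_sub]
      omega
    rw [hdecomp, h1, ← Finset.mul_sum, hn] at htot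
    have : z * (∑ ω : Ω, (n - β ω) + 2) = z * (2 * n) := by rw [mul_add]; linarith
    exact Nat.eq_of_mul_eq_mul_left hzpos this
  -- number of orbits
  set r := Fintype.card Ω with hr
  have hup : ∑ ω : Ω, (n - β ω) ≤ r * (n - 3) := by
    have := Finset.sum_le_card_nsmul (Finset.univ : Finset Ω) (fun ω => n - β ω) (n - 3)
      (fun ω _ => by have := hβ3 ω; omega)
    simpa [hr] using this
  have hlo : r * n ≤ 2 * ∑ ω : Ω, (n - β ω) := by
    have := Finset.card_nsmul_le_sum (Finset.univ : Finset Ω) (fun ω => 2 * (n - β ω)) n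
      (fun ω _ => by have := hβn ω; omega)
    rw [← Finset.mul_sum] at this
    simpa [hr] using this
  have hnN : N ≤ 60 * z → False := fun h => by omega
  rcases Nat.eq_zero_or_pos r with hr0 | hrpos
  · -- no orbit at all
    have hempty : ∑ ω : Ω, (n - β ω) = 0 := by
      have : r * (n - 3) = 0 := by rw [hr0, zero_mul]
      omega
    have hn1 : n = 1 := by omega
    apply hnN
    rw [hn, hn1]
    omega
  · have hn6 : 6 ≤ n := by
      obtain ⟨ω⟩ : Nonempty Ω := Fintype.card_pos_iff.mp hrpos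
      have := hβ3 ω
      have := hβn ω
      omega
    have hr3 : r = 3 := by
      have h1 : r ≤ 3 := by
        by_contra hc
        have : 4 * n ≤ r * n := Nat.mul_le_mul (by omega) le_rfl
        omega
      have h2 : 3 ≤ r := by
        by_contra hc
        have : r * (n - 3) ≤ 2 * (n - 3) := Nat.mul_le_mul (by omega) le_rfl
        omega
      omega
    obtain ⟨ω₁, ω₂, ω₃, h12, h13, h23, huniv⟩ := Finset.card_eq_three.mp
      (show (Finset.univ : Finset Ω).card = 3 by rw [Finset.card_univ, ← hr, hr3])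
    rw [huniv, Finset.sum_insert (by simp [h12, h13]), Finset.sum_insert (by simp [h23]),
      Finset.sum_singleton] at hsumΩ
    obtain ⟨e₁, he₁, -, hb₁⟩ := hstab ω₁.out
    obtain ⟨e₂, he₂, -, hb₂⟩ := hstab ω₂.out
    obtain ⟨e₃, he₃, -, hb₃⟩ := hstab ω₃.out
    have hs : β ω₁ + β ω₂ + β ω₃ = n + 2 := by
      have := hβn ω₁
      have := hβn ω₂
      have := hβn ω₃
      omega
    have hn60 := three_orbits_numerics n (β ω₁) (β ω₂) (β ω₃) e₁ e₂ e₃ hb₁ hb₂ hb₃
      (hβ3 ω₁) (hβ3 ω₂) (hβ3 ω₃) he₁ he₂ he₃ hs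
    apply hnN
    rw [hn]
    calc z * n ≤ z * 60 := Nat.mul_le_mul le_rfl hn60
      _ = 60 * z := by ring

end Orbits

end Fermat.Agent.S48lib.Grp
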