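/-
S48 (Deligne–Serre), block Grp (I7), file 2 (Part A): a finite semisimple subgroup `G ≤ GL₂(k)`,
`char k = ℓ > 4m`, three quarters of whose elements take at most `m` values of `tau`, has order
prime to `ℓ`.  (Coset counting: if `u ∈ G` has order `ℓ`, `N = u - 1`, then on a coset `g⟨u⟩` with
`tr (g N) ≠ 0` the trace takes `ℓ` distinct values, and `{g | tr (g N) = 0}` is contained in the
stabiliser of the line `im N`, a proper subgroup.)
-/
import Mathlib
import Fermat.Agent.S48lib.Grp.Basic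

set_option autoImplicit false
set_option linter.unusedSectionVars false
set_option linter.style.haveILetI false

namespace Fermat.Agent.S48lib.Grp

open Fermat.Agent.S56lib.TW
open scoped Matrix

variable {k : Type*} [Field k]

/-- the stabiliser in `G` of the line spanned by `v₀`. -/
def lineStab (G : Subgroup (GL (Fin 2) k)) (v₀ : Fin 2 → k) (hv₀ : v₀ ≠ 0) : Subgroup G where
  carrier := {g | ∃ c : k, g.1.1 *ᵥ v₀ = c • v₀}
  one_mem' := ⟨1, by simp⟩
  mul_mem' := by
    rintro g h ⟨c, hc⟩ ⟨d, hd⟩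
    refine ⟨d * c, ?_⟩
    show (g * h).1.1 *ᵥ v₀ = _
    rw [Subgroup.coe_mul, Units.val_mul, ← Matrix.mulVec_mulVec, hd, Matrix.mulVec_smul, hc,
      smul_smul]
  inv_mem' := by
    rintro g ⟨c, hc⟩
    refine ⟨c⁻¹, ?_⟩
    show (g⁻¹).1.1 *ᵥ v₀ = _
    rw [Subgroup.coe_inv]
    exact inv_mulVec_eigen g.1 v₀ hv₀ c hc

theorem mem_lineStab (G : Subgroup (GL (Fin 2) k)) (v₀ : Fin 2 → k) (hv₀ : v₀ ≠ 0) (g : G) :
    g ∈ lineStab G v₀ hv₀ ↔ ∃ c : k, g.1.1 *ᵥ v₀ = c • v₀ := Iff.rfl

/-- proportional vectors from a vanishing cross product. -/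
theorem exists_smul_eq_of_cross (v y : Fin 2 → k) (hv : v ≠ 0) (hy : y ≠ 0)
    (h : cross v y = 0) : ∃ c : k, y = c • v := by
  have h1 := mk_eq_of_cross v y hv hy h
  rw [Projectivization.mk_eq_mk_iff'] at h1
  obtain ⟨a, ha⟩ := h1
  have ha0 : a ≠ 0 := by
    rintro rfl
    rw [zero_smul] at ha
    exact hv ha.symm
  exact ⟨a⁻¹, by rw [← ha, smul_smul, inv_mul_cancel₀ ha0, one_smul]⟩

/-- **Part A**. -/
theorem not_dvd_card [DecidableEq k] (ℓ : ℕ) [hℓp : Fact ℓ.Prime] [CharP k ℓ] (m : ℕ) (hℓ : 4 * m < ℓ)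
    (G : Subgroup (GL (Fin 2) k)) [Finite G]
    (hss : ∀ v : Fin 2 → k, v ≠ 0 → (∀ g : G, ∃ c : k, g.1.1 *ᵥ v = c • v) →
      ∃ w : Fin 2 → k, (∀ g : G, ∃ c : k, g.1.1 *ᵥ w = c • w) ∧
        ∀ a b : k, a • v + b • w = 0 → a = 0 ∧ b = 0)
    (H : Finset G) (hH : 3 * Nat.card G ≤ 4 * H.card)
    (hm : (H.image (fun g : G => tau g.1)).card ≤ m) : ¬ ℓ ∣ Nat.card G := by
  classical
  intro hdvd
  haveI : Fintype G := Fintype.ofFinite G
  obtain ⟨u, hu⟩ := exists_prime_orderOf_dvd_card' ℓ hdvd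
  set A : Matrix (Fin 2) (Fin 2) k := u.1.1 with hA
  have hcoe_pow : ∀ j : ℕ, (u ^ j).1.1 = A ^ j := by
    intro j
    rw [Subgroup.coe_pow, Units.val_pow_eq_pow_val]
  have hAℓ : A ^ ℓ = 1 := by
    rw [← hcoe_pow, ← hu, pow_orderOf_eq_one]
    rfl
  obtain ⟨hNtr, hNdet⟩ := unipotent_of_pow ℓ A 1 (by rwa [pow_one])
  set N : Matrix (Fin 2) (Fin 2) k := A - 1 with hN
  have hAN : A = 1 + N := by rw [hN]; abel
  have hNN : N * N = 0 := nilp_sq N hNtr hNdet
  have hu1 : u ≠ 1 := by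
    intro h
    rw [h, orderOf_one] at hu
    exact hℓp.out.one_lt.ne hu
  have hN0 : N ≠ 0 := by
    intro h0
    apply hu1
    apply Subtype.ext
    apply Units.ext
    show A = 1
    rw [hAN, h0, add_zero]
  obtain ⟨w, hw⟩ := exists_mulVec_ne_zero N hN0
  set v₀ : Fin 2 → k := N *ᵥ w with hv₀
  have hNv₀ : N *ᵥ v₀ = 0 := by rw [hv₀, Matrix.mulVec_mulVec, hNN, Matrix.zero_mulVec]
  -- powers of `A`
  have hpow : ∀ j : ℕ, A ^ j = 1 + (j : k) • N := by
    intro j
    induction j with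
    | zero => simp
    | succ j ih =>
      rw [pow_succ, ih, hAN, add_mul, mul_add, mul_add, Matrix.smul_mul, Matrix.smul_mul, hNN,
        smul_zero, add_zero, Matrix.one_mul, Matrix.one_mul, Matrix.mul_one, Nat.cast_succ,
        add_smul, one_smul]
      abel
  -- the stabiliser of the line `k v₀`
  set B₀ : Subgroup G := lineStab G v₀ hw with hB₀
  have hker : ∀ y : Fin 2 → k, y ≠ 0 → N *ᵥ y = 0 → ∃ c : k, y = c • v₀ := by
    intro y hy hNy
    apply exists_smul_eq_of_cross v₀ y hw hy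
    by_contra hcr
    exact hN0 (eq_zero_of_mulVec_eq_zero N v₀ y hcr hNv₀ hNy)
  have hmemB₀ : ∀ g : G, (g.1.1 * N).trace = 0 → g ∈ B₀ := by
    intro g ht
    have h1 := nilp_sandwich N g.1.1 hNtr hNdet
    rw [ht, zero_smul] at h1
    have h2 : N *ᵥ (g.1.1 *ᵥ v₀) = 0 := by
      rw [hv₀, Matrix.mulVec_mulVec, Matrix.mulVec_mulVec, h1, Matrix.zero_mulVec]
    obtain ⟨c, hc⟩ := hker _ (mulVec_ne_zero g.1 hw) h2
    exact ⟨c, hc⟩
  have hB₀top : B₀ ≠ ⊤ := by
    intro htop
    have hall : ∀ g : G, ∃ c : k, g.1.1 *ᵥ v₀ = c • v₀ := by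
      intro g
      have : g ∈ B₀ := by rw [htop]; exact Subgroup.mem_top g
      exact this
    obtain ⟨w', hw', hind⟩ := hss v₀ hw hall
    have hw'0 : w' ≠ 0 := by
      rintro rfl
      have := (hind 0 1 (by simp)).2
      exact one_ne_zero this
    obtain ⟨c, hc⟩ := hw' u
    have hNw' : N *ᵥ w' = (c - 1) • w' := by
      rw [hN, Matrix.sub_mulVec, Matrix.one_mulVec, sub_smul, one_smul]
      exact congrArg (· - w') hc
    have hsq : ((c - 1) * (c - 1)) • w' = 0 := by
      have : N *ᵥ (N *ᵥ w') = 0 := by rw [Matrix.mulVec_mulVec, hNN, Matrix.zero_mulVec]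
      rwa [hNw', Matrix.mulVec_smul, hNw', smul_smul] at this
    have hc1 : c - 1 = 0 := by
      rcases smul_eq_zero.mp hsq with h | h
      · exact mul_self_eq_zero.mp h
      · exact absurd h hw'0
    rw [hc1, zero_smul] at hNw'
    obtain ⟨a, ha⟩ := hker w' hw'0 hNw'
    have := (hind a (-1) (by rw [ha]; simp)).2
    simp at this
  have hB₀card : 2 * Nat.card B₀ ≤ Nat.card G := by
    have h1 := Subgroup.card_mul_index B₀
    have h2 : B₀.index ≠ 1 := fun h => hB₀top (Subgroup.index_eq_one.mp h)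
    have h3 : B₀.index ≠ 0 := Subgroup.index_ne_zero_of_finite
    have h4 : 2 ≤ B₀.index := by omega
    calc 2 * Nat.card B₀ = Nat.card B₀ * 2 := by ring
      _ ≤ Nat.card B₀ * B₀.index := Nat.mul_le_mul le_rfl h4
      _ = Nat.card G := h1
  -- the cyclic group generated by `u`
  set U : Subgroup G := Subgroup.zpowers u with hU
  have hquot : Nat.card (G ⧸ U) * ℓ = Nat.card G := by
    rw [Subgroup.card_eq_card_quotient_mul_card_subgroup U, hU, Nat.card_zpowers, hu]
  haveI : Fintype (G ⧸ U) := Fintype.ofFinite _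
  -- the elements of `H` outside `B₀`
  set S : Finset G := H.filter (fun g => (g.1.1 * N).trace ≠ 0) with hS
  have hinj : Set.InjOn (fun g : G => ((g : G ⧸ U), tau g.1)) (S : Set G) := by
    intro g hg g' hg' heq
    simp only [Prod.mk.injEq] at heq
    obtain ⟨hq, hτ⟩ := heq
    have hgt : (g.1.1 * N).trace ≠ 0 := (Finset.mem_filter.mp (Finset.mem_coe.mp hg)).2
    rw [QuotientGroup.eq, hU] at hq
    have hfin : IsOfFinOrder u := isOfFinOrder_of_finite u
    rw [← hfin.mem_powers_iff_mem_zpowers, Submonoid.mem_powers_iff] at hq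
    obtain ⟨j, hj⟩ := hq
    have hg' : g' = g * u ^ j := by rw [hj]; group
    have htr : g'.1.1.trace = g.1.1.trace + (j : k) * (g.1.1 * N).trace := by
      rw [hg', Subgroup.coe_mul, Units.val_mul, hcoe_pow, hpow, mul_add, Matrix.mul_one,
        Matrix.mul_smul, Matrix.trace_add, Matrix.trace_smul, smul_eq_mul]
    have hτ1 : g.1.1.trace = g'.1.1.trace := congrArg Prod.fst hτ
    have hj0 : (j : k) = 0 := by
      have : (j : k) * (g.1.1 * N).trace = 0 := by linear_combination -htr - hτ1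
      rcases mul_eq_zero.mp this with h | h
      · exact h
      · exact absurd h hgt
    have hdj : ℓ ∣ j := (CharP.cast_eq_zero_iff k ℓ j).mp hj0
    have huj : u ^ j = 1 := by
      rw [← orderOf_dvd_iff_pow_eq_one, hu]
      exact hdj
    rw [hg', huj, mul_one]
  have hScard : S.card ≤ Nat.card (G ⧸ U) * m := by
    rw [← Finset.card_image_of_injOn hinj]
    have hsub : S.image (fun g : G => ((g : G ⧸ U), tau g.1)) ⊆
        (Finset.univ : Finset (G ⧸ U)) ×ˢ (H.image (fun g : G => tau g.1)) := by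
      intro x hx
      obtain ⟨g, hg, rfl⟩ := Finset.mem_image.mp hx
      rw [Finset.mem_product]
      exact ⟨Finset.mem_univ _, Finset.mem_image.mpr ⟨g, (Finset.mem_filter.mp hg).1, rfl⟩⟩
    calc _ ≤ ((Finset.univ : Finset (G ⧸ U)) ×ˢ (H.image (fun g : G => tau g.1))).card :=
          Finset.card_le_card hsub
      _ = Fintype.card (G ⧸ U) * (H.image (fun g : G => tau g.1)).card := by
          rw [Finset.card_product, Finset.card_univ]
      _ ≤ Nat.card (G ⧸ U) * m := by
          rw [Nat.card_eq_fintype_card]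
          exact Nat.mul_le_mul le_rfl hm
  -- the elements of `H` inside `B₀`
  have hTcard : (H.filter (fun g => (g.1.1 * N).trace = 0)).card ≤ Nat.card B₀ := by
    rw [Nat.card_eq_fintype_card, Fintype.card_subtype]
    apply Finset.card_le_card
    intro g hg
    rw [Finset.mem_filter] at hg ⊢
    exact ⟨Finset.mem_univ _, hmemB₀ g hg.2⟩
  have hsplit : (H.filter (fun g => (g.1.1 * N).trace = 0)).card + S.card = H.card :=
    Finset.card_filter_add_card_filter_not _
  have hGpos : 0 < Nat.card G := Nat.card_pos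
  -- arithmetic
  set q := Nat.card (G ⧸ U) with hq
  have h1 : Nat.card G ≤ 4 * S.card := by omega
  have h2 : q * ℓ ≤ q * (4 * m) := by
    calc q * ℓ = Nat.card G := hquot
      _ ≤ 4 * S.card := h1
      _ ≤ 4 * (q * m) := Nat.mul_le_mul le_rfl hScard
      _ = q * (4 * m) := by ring
  have hqpos : 0 < q := by
    rcases Nat.eq_zero_or_pos q with h | h
    · rw [h, zero_mul] at hquot; omega
    · exact h
  have := Nat.le_of_mul_le_mul_left h2 hqpos
  omega

end Fermat.Agent.S48lib.Grp
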