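/-
S48 (Deligne–Serre), block Grp (I7), file 4 (Part B, geometry): for a finite subgroup
`G ≤ GL₂(K)`, `K` algebraically closed, without unipotents, every non-scalar element has exactly two
fixed points on the projective line; the set of these fixed points ("poles") is a finite `G`-set,
to which the pole count applies: `G` has a line stabiliser of index at most two, or
`|G| ≤ 60 |Z|`.
-/
import Mathlib
import Fermat.Agent.S48lib.Grp.Unip
import Fermat.Agent.S48lib.Grp.Count

set_option autoImplicit false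
set_option linter.unusedSectionVars false
set_option linter.style.haveILetI false

namespace Fermat.Agent.S48lib.Grp

open Fermat.Agent.S56lib.TW MulAction
open scoped Matrix

variable {K : Type*} [Field K]

/-- the scalars of `G`, as a subgroup of `↥G`. -/
def scalG (G : Subgroup (GL (Fin 2) K)) : Subgroup G :=
  (Subgroup.center (GL (Fin 2) K)).subgroupOf G

instance scalG_normal (G : Subgroup (GL (Fin 2) K)) : (scalG G).Normal := by
  unfold scalG
  infer_instance

theorem mem_scalG (G : Subgroup (GL (Fin 2) K)) (g : G) : g ∈ scalG G ↔ IsScal g.1.1 := by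
  rw [scalG, Subgroup.mem_subgroupOf, isScal_iff_mem_center]

theorem smul_coe (G : Subgroup (GL (Fin 2) K)) (g : G) (x : P1 K) :
    g • x = (g : GL (Fin 2) K) • x := rfl

/-- an eigenvector over an algebraically closed field. -/
theorem exists_fixed [IsAlgClosed K] (g : GL (Fin 2) K) : ∃ x : P1 K, g • x = x := by
  classical
  have hdeg : g.1.charpoly.degree ≠ 0 := by
    rw [Matrix.charpoly_degree_eq_dim]
    simp
  obtain ⟨α, hα⟩ := IsAlgClosed.exists_root g.1.charpoly hdeg
  have hdet : (Matrix.scalar (Fin 2) α - g.1).det = 0 := by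
    rw [← Matrix.eval_charpoly]
    exact hα
  obtain ⟨v, hv0, hv⟩ := Matrix.exists_mulVec_eq_zero_iff.2 hdet
  have hgv : g.1 *ᵥ v = α • v := by
    rw [Matrix.sub_mulVec, sub_eq_zero] at hv
    rw [← hv]
    funext i
    simp [Matrix.mulVec, dotProduct, Matrix.scalar_apply, Matrix.diagonal_apply]
  refine ⟨Projectivization.mk K v hv0, ?_⟩
  rw [smul_mk_eq_iff, hgv, cross_smul_right, S56lib.TW.cross_self, mul_zero]

/-- **two fixed points**. -/
theorem two_fixed [IsAlgClosed K] (h2 : (2 : K) ≠ 0) {G : Subgroup (GL (Fin 2) K)}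
    (hG : NoUnip G) (g : GL (Fin 2) K) (hg : g ∈ G) (hns : ¬ IsScal g.1) :
    ∃ y z : P1 K, y ≠ z ∧ fixedBy (P1 K) g = {y, z} := by
  obtain ⟨x, hx⟩ := exists_fixed g
  rcases fixedBy_eq_one_or_two g hns x hx with ⟨y, hy⟩ | h
  · exfalso
    by_cases hreg : g.1.trace ^ 2 ≠ 4 * g.1.det
    · obtain ⟨vp, vm, ap, am, hcr, hp, hm, -⟩ := exists_eigenbasis g ⟨x, hx⟩ hreg
      have hvp : vp ≠ 0 := by
        rintro rfl
        exact hcr (cross_zero_left vm)
      have hvm : vm ≠ 0 := by
        rintro rfl
        apply hcr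
        rw [cross_comm, cross_zero_left, neg_zero]
      have h1 : Projectivization.mk K vp hvp ∈ fixedBy (P1 K) g := by
        rw [mem_fixedBy, smul_mk_eq_iff, hp, cross_smul_right, S56lib.TW.cross_self, mul_zero]
      have h2' : Projectivization.mk K vm hvm ∈ fixedBy (P1 K) g := by
        rw [mem_fixedBy, smul_mk_eq_iff, hm, cross_smul_right, S56lib.TW.cross_self, mul_zero]
      rw [hy, Set.mem_singleton_iff] at h1 h2'
      have := h1.trans h2'.symm
      rw [mk_eq_mk_iff_cross] at this
      exact hcr this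
    · push Not at hreg
      have h4 : (4 : K) ≠ 0 := by
        have : (4 : K) = 2 * 2 := by norm_num
        rw [this]
        exact mul_ne_zero h2 h2
      set α := g.1.trace / 2 with hα
      have htr : g.1.trace = 2 * α := by rw [hα]; field_simp
      have hdet : g.1.det = α * α := by
        have : 4 * g.1.det = 4 * (α * α) := by rw [← hreg, htr]; ring
        exact mul_left_cancel₀ h4 this
      apply hns
      rw [hG g hg α htr hdet]
      exact isScal_smul_one α
  · exact h

/-- the poles of `G`: the points of the projective line fixed by some non-scalar element. -/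
def poles (G : Subgroup (GL (Fin 2) K)) : SubMulAction G (P1 K) where
  carrier := {x | ∃ g : G, ¬ IsScal g.1.1 ∧ g • x = x}
  smul_mem' := by
    rintro h x ⟨g, hg, hgx⟩
    refine ⟨h * g * h⁻¹, ?_, ?_⟩
    · intro hs
      apply hg
      rw [← mem_scalG] at hs ⊢
      have := (scalG_normal G).conj_mem _ hs h⁻¹
      simpa [mul_assoc] using this
    · rw [mul_smul, mul_smul, inv_smul_smul, hgx]

theorem mem_poles (G : Subgroup (GL (Fin 2) K)) (x : P1 K) :
    x ∈ poles G ↔ ∃ g : G, ¬ IsScal g.1.1 ∧ g • x = x := Iff.rfl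

theorem finite_poles [IsAlgClosed K] (h2 : (2 : K) ≠ 0) (G : Subgroup (GL (Fin 2) K)) [Finite G]
    (hG : NoUnip G) : Finite (poles G) := by
  have hsub : {x : P1 K | x ∈ poles G} ⊆
      ⋃ g : {g : G // ¬ IsScal g.1.1}, fixedBy (P1 K) (g.1.1 : GL (Fin 2) K) := by
    rintro x ⟨g, hg, hgx⟩
    rw [Set.mem_iUnion]
    exact ⟨⟨g, hg⟩, hgx⟩
  have hfin : (⋃ g : {g : G // ¬ IsScal g.1.1},
      fixedBy (P1 K) (g.1.1 : GL (Fin 2) K)).Finite := by
    apply Set.finite_iUnion
    rintro ⟨g, hg⟩
    obtain ⟨y, z, -, hyz⟩ := two_fixed h2 hG g.1 g.2 hg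
    show (fixedBy (P1 K) (g.1 : GL (Fin 2) K)).Finite
    rw [hyz]
    exact Set.toFinite _
  exact (hfin.subset hsub).to_subtype

/-- **Part B, structure**: a line stabiliser of index at most two, or `|G| ≤ 60 |Z|`. -/
theorem exists_lineStab_or_small [IsAlgClosed K] (h2 : (2 : K) ≠ 0)
    (G : Subgroup (GL (Fin 2) K)) [Finite G] (hG : NoUnip G) :
    (∃ (v : Fin 2 → K) (hv : v ≠ 0), Nat.card G ≤ 2 * Nat.card (lineStab G v hv)) ∨
      Nat.card G ≤ 60 * Nat.card (scalG G) := by
  classical
  haveI : Fintype G := Fintype.ofFinite G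
  haveI : Finite (poles G) := finite_poles h2 G hG
  haveI : Fintype (poles G) := Fintype.ofFinite _
  have hZc : ∀ g ∈ scalG G, ∀ x : poles G, g • x = x := by
    intro g hg x
    apply Subtype.ext
    rw [SubMulAction.val_smul, smul_coe]
    exact (isScal_iff_forall_smul g.1).mp ((mem_scalG G g).mp hg) x.1
  have hfix : ∀ g : G, g ∉ scalG G → ∃ y z : poles G, y ≠ z ∧ fixedBy (poles G) g = {y, z} := by
    intro g hg
    have hns : ¬ IsScal g.1.1 := fun h => hg ((mem_scalG G g).mpr h)
    obtain ⟨y, z, hyz, hf⟩ := two_fixed h2 hG g.1 g.2 hns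
    have hy : y ∈ poles G := ⟨g, hns, by
      have : y ∈ fixedBy (P1 K) (g : GL (Fin 2) K) := hf ▸ Set.mem_insert _ _
      exact this⟩
    have hz : z ∈ poles G := ⟨g, hns, by
      have : z ∈ fixedBy (P1 K) (g : GL (Fin 2) K) := hf ▸ Set.mem_insert_of_mem _ rfl
      exact this⟩
    refine ⟨⟨y, hy⟩, ⟨z, hz⟩, fun h => hyz (congrArg Subtype.val h), ?_⟩
    ext x
    rw [mem_fixedBy, Set.mem_insert_iff, Set.mem_singleton_iff, Subtype.ext_iff, Subtype.ext_iff,
      Subtype.ext_iff, SubMulAction.val_smul, smul_coe]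
    have : (g : GL (Fin 2) K) • x.1 = x.1 ↔ x.1 ∈ fixedBy (P1 K) (g : GL (Fin 2) K) := Iff.rfl
    rw [this, hf, Set.mem_insert_iff, Set.mem_singleton_iff]
  have hpole : ∀ x : poles G, Nat.card (scalG G) < stabCard G x := by
    intro x
    by_contra hcon
    push Not at hcon
    have hle : scalG G ≤ stabilizer G x := fun g hg => mem_stabilizer_iff.mpr (hZc g hg x)
    have heq := Subgroup.eq_of_le_of_card_ge hle hcon
    obtain ⟨g, hg, hgx⟩ := x.2
    have hmem : g ∈ stabilizer G x := by
      rw [mem_stabilizer_iff]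
      apply Subtype.ext
      rw [SubMulAction.val_smul]
      exact hgx
    rw [← heq, mem_scalG] at hmem
    exact hg hmem
  rcases small_orbit_or_small (scalG G) hZc hfix hpole with ⟨x, hx⟩ | h
  · left
    have hprod := card_orbF_mul_stabCard (G := G) x
    obtain ⟨x₀, hx₀⟩ := x
    induction x₀ using Projectivization.ind with
    | h v hv =>
      refine ⟨v, hv, ?_⟩
      have hle : stabilizer G (⟨Projectivization.mk K v hv, hx₀⟩ : poles G) ≤ lineStab G v hv := by
        intro g hg
        rw [mem_stabilizer_iff, Subtype.ext_iff, SubMulAction.val_smul, smul_coe] at hg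
        exact exists_eigenvalue_of_fixed g.1 v hv hg
      have hcard := Subgroup.card_le_of_le hle
      rw [Nat.card_eq_fintype_card, ← hprod]
      rw [stabCard] at hprod ⊢
      calc _ ≤ 2 * Nat.card (stabilizer G (⟨Projectivization.mk K v hv, hx₀⟩ : poles G)) :=
            Nat.mul_le_mul hx le_rfl
        _ ≤ _ := Nat.mul_le_mul le_rfl hcard
  · right
    rw [Nat.card_eq_fintype_card]
    exact h

end Fermat.Agent.S48lib.Grp
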