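/-
S48 (Deligne–Serre), block Grp (I7), file 5: **the bounded image statement** `DS.BoundedImageStmt`.
`A(m) = 160 m + 2`: for `ℓ > A(m)`, Part A gives `ℓ ∤ |G|`, hence no unipotents, and Part B gives a
line stabiliser of index `≤ 2` (then `|G| ≤ 8m` by the Borel principle) or `|G/Z| ≤ 60` (then
`|G| ≤ 160 m`, at most two elements of a coset of `Z` sharing a value of `tau`).
-/
import Mathlib
import Fermat.Agent.S48lib.DS.Inputs
import Fermat.Agent.S48lib.Grp.Poles

set_option autoImplicit false
set_option linter.unusedSectionVars false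
set_option linter.style.haveILetI false

namespace Fermat.Agent.S48lib.Grp

open Fermat.Agent.S56lib.TW MulAction
open scoped Matrix

variable {k : Type*} [Field k]

/-- the case of a big line stabiliser. -/
theorem card_le_of_lineStab [DecidableEq k] (m : ℕ) (G : Subgroup (GL (Fin 2) k)) [Finite G]
    (hG : NoUnip G) (v : Fin 2 → k) (hv : v ≠ 0)
    (hT : Nat.card G ≤ 2 * Nat.card (lineStab G v hv))
    (H : Finset G) (hH : 3 * Nat.card G ≤ 4 * H.card)
    (hm : (H.image (fun g : G => tau g.1)).card ≤ m) : Nat.card G ≤ 8 * m := by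
  classical
  haveI : Fintype G := Fintype.ofFinite G
  set T := lineStab G v hv with hTdef
  -- the elements of `H` in `T`
  set S : Finset (GL (Fin 2) k) := (H.filter (fun g => g ∈ T)).image Subtype.val with hS
  have hScard : S.card = (H.filter (fun g => g ∈ T)).card :=
    Finset.card_image_of_injective _ Subtype.val_injective
  have hSprop : ∀ g ∈ S, g ∈ G ∧ ∃ a : k, g.1 *ᵥ v = a • v := by
    intro g hg
    obtain ⟨g', hg', rfl⟩ := Finset.mem_image.mp hg
    exact ⟨g'.2, (Finset.mem_filter.mp hg').2⟩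
  have hSim : (S.image tau).card ≤ m := by
    refine le_trans (Finset.card_le_card ?_) hm
    intro b hb
    obtain ⟨g, hg, rfl⟩ := Finset.mem_image.mp hb
    obtain ⟨g', hg', rfl⟩ := Finset.mem_image.mp hg
    exact Finset.mem_image.mpr ⟨g', (Finset.mem_filter.mp hg').1, rfl⟩
  have h1 : (H.filter (fun g => g ∈ T)).card ≤ 2 * m := by
    rw [← hScard]
    exact le_trans (card_le_two_mul_card_image_of_eigen hG v hv S hSprop)
      (Nat.mul_le_mul le_rfl hSim)
  -- the elements of `H` outside `T`
  have h2 : (H.filter (fun g => ¬ g ∈ T)).card + Nat.card T ≤ Nat.card G := by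
    have h3 : (H.filter (fun g => ¬ g ∈ T)).card ≤ (Finset.univ.filter (fun g : G => ¬ g ∈ T)).card :=
      Finset.card_le_card fun g hg => by
        rw [Finset.mem_filter] at hg ⊢
        exact ⟨Finset.mem_univ _, hg.2⟩
    have h4 : (Finset.univ.filter (fun g : G => g ∈ T)).card = Nat.card T := by
      rw [Nat.card_eq_fintype_card, Fintype.card_subtype]
    have h5 := Finset.card_filter_add_card_filter_not (s := (Finset.univ : Finset G))
      (fun g : G => g ∈ T)
    rw [Finset.card_univ, ← Nat.card_eq_fintype_card] at h5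
    omega
  have h6 := Finset.card_filter_add_card_filter_not (s := H) (fun g : G => g ∈ T)
  omega

/-- the case of a small projective image. -/
theorem card_le_of_small [DecidableEq k] (m : ℕ) (G : Subgroup (GL (Fin 2) k)) [Finite G]
    (hZ : Nat.card G ≤ 60 * Nat.card (scalG G))
    (H : Finset G) (hH : 3 * Nat.card G ≤ 4 * H.card)
    (hm : (H.image (fun g : G => tau g.1)).card ≤ m) : Nat.card G ≤ 160 * m := by
  classical
  haveI : Fintype G := Fintype.ofFinite G
  set Z := scalG G with hZdef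
  haveI : Fintype (G ⧸ Z) := Fintype.ofFinite _
  have hq : Nat.card (G ⧸ Z) ≤ 60 := by
    have h1 := Subgroup.card_eq_card_quotient_mul_card_subgroup Z
    have hzpos : 0 < Nat.card Z := Nat.card_pos
    rw [h1] at hZ
    exact Nat.le_of_mul_le_mul_right hZ hzpos
  set F : G → (G ⧸ Z) × (k × k) := fun g => ((g : G ⧸ Z), tau g.1) with hF
  have hfib : ∀ b ∈ H.image F, (H.filter (fun g => F g = b)).card ≤ 2 := by
    intro b _
    by_contra hcon
    push Not at hcon
    obtain ⟨g₁, g₂, g₃, h₁, h₂, h₃, h12, h13, h23⟩ := Finset.two_lt_card_iff.mp hcon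
    simp only [Finset.mem_filter] at h₁ h₂ h₃
    have q12 : F g₁ = F g₂ := h₁.2.trans h₂.2.symm
    have q13 : F g₁ = F g₃ := h₁.2.trans h₃.2.symm
    simp only [hF, Prod.mk.injEq] at q12 q13
    have key : ∀ g' : G, ((g₁ : G ⧸ Z) = (g' : G ⧸ Z)) → tau g₁.1 = tau g'.1 → g₁ ≠ g' →
        (g₁⁻¹ * g').1.1 = (-1 : k) • (1 : Matrix (Fin 2) (Fin 2) k) := by
      intro g' hq hτ hne
      rw [QuotientGroup.eq, hZdef, mem_scalG] at hq
      have hdet : (g₁.1 * (g₁⁻¹ * g').1).1.det = g₁.1.1.det := by
        have : g₁.1 * (g₁⁻¹ * g').1 = g'.1 := by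
          rw [← Subgroup.coe_mul, mul_inv_cancel_left]
        rw [this]
        exact (congrArg Prod.snd hτ).symm
      rcases scalar_coset g₁.1 (g₁⁻¹ * g').1 hq hdet with h | h
      · exfalso
        apply hne
        have h' : g₁⁻¹ * g' = 1 := Subtype.ext h
        rw [inv_mul_eq_one] at h'
        exact h'
      · exact h
    have e2 := key g₂ q12.1 q12.2 h12
    have e3 := key g₃ q13.1 q13.2 h13
    apply h23
    have : g₁⁻¹ * g₂ = g₁⁻¹ * g₃ := by
      apply Subtype.ext
      apply Units.ext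
      rw [e2, e3]
    exact mul_left_cancel this
  have h1 : H.card ≤ 2 * (H.image F).card := Finset.card_le_mul_card_image H 2 hfib
  have h2 : (H.image F).card ≤ Nat.card (G ⧸ Z) * m := by
    have hsub : H.image F ⊆
        (Finset.univ : Finset (G ⧸ Z)) ×ˢ (H.image (fun g : G => tau g.1)) := by
      intro x hx
      obtain ⟨g, hg, rfl⟩ := Finset.mem_image.mp hx
      rw [Finset.mem_product]
      exact ⟨Finset.mem_univ _, Finset.mem_image.mpr ⟨g, hg, rfl⟩⟩
    calc _ ≤ ((Finset.univ : Finset (G ⧸ Z)) ×ˢ (H.image (fun g : G => tau g.1))).card :=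
          Finset.card_le_card hsub
      _ = Fintype.card (G ⧸ Z) * (H.image (fun g : G => tau g.1)).card := by
          rw [Finset.card_product, Finset.card_univ]
      _ ≤ Nat.card (G ⧸ Z) * m := by
          rw [Nat.card_eq_fintype_card]
          exact Nat.mul_le_mul le_rfl hm
  have h3 : Nat.card (G ⧸ Z) * m ≤ 60 * m := Nat.mul_le_mul hq le_rfl
  omega

/-- **(I7) bounded image**. -/
theorem boundedImage : DS.BoundedImageStmt := by
  intro m
  refine ⟨160 * m + 2, ?_⟩
  intro ℓ hℓp hℓ k _ _ _ G _ hss H hHG hH hm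
  classical
  haveI : Fintype G := Fintype.ofFinite G
  -- `H` as a finset of `↥G`
  set Hf : Finset G := Finset.univ.filter (fun g : G => g.1 ∈ H) with hHf
  have hHeq : H = Subtype.val '' (Hf : Set G) := by
    ext g
    constructor
    · intro hg
      exact ⟨⟨g, hHG hg⟩, by simp [hHf, hg], rfl⟩
    · rintro ⟨g', hg', rfl⟩
      simpa [hHf] using hg'
  have hHcard : H.ncard = Hf.card := by
    rw [hHeq, Set.ncard_image_of_injective _ Subtype.val_injective, Set.ncard_coe_finset]
  have hτ : (Hf.image (fun g : G => tau g.1)).card ≤ m := by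
    refine le_trans (le_of_eq ?_) hm
    rw [← Set.ncard_coe_finset, Finset.coe_image]
    congr 1
    rw [hHeq, Set.image_image]
    rfl
  rw [hHcard] at hH
  -- Part A
  have hss' : ∀ v : Fin 2 → k, v ≠ 0 → (∀ g : G, ∃ c : k, g.1.1 *ᵥ v = c • v) →
      ∃ w : Fin 2 → k, (∀ g : G, ∃ c : k, g.1.1 *ᵥ w = c • w) ∧
        ∀ a b : k, a • v + b • w = 0 → a = 0 ∧ b = 0 := fun v hv h => hss v hv h
  have hnd : ¬ ℓ ∣ Nat.card G := not_dvd_card ℓ m (by omega) G hss' Hf hH hτ
  have hcard : ((Nat.card G : ℕ) : k) ≠ 0 := fun h => hnd ((CharP.cast_eq_zero_iff k ℓ _).mp h)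
  have h2 : (2 : k) ≠ 0 := by
    intro h
    have h' : ((2 : ℕ) : k) = 0 := by exact_mod_cast h
    have := Nat.le_of_dvd (by norm_num) ((CharP.cast_eq_zero_iff k ℓ 2).mp h')
    omega
  have hNU := noUnip_of_card h2 G hcard
  -- Part B
  rcases exists_lineStab_or_small h2 G hNU with ⟨v, hv, hT⟩ | hZ
  · have := card_le_of_lineStab m G hNU v hv hT Hf hH hτ
    omega
  · have := card_le_of_small m G hZ Hf hH hτ
    omega

end Fermat.Agent.S48lib.Grp
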